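import Mathlib
import Fermat.Agent.H72.FDT.Interfaces

/-!
# P-FDT, FDT-D: the decomposition group at an unramified prime is generated by a Frobenius
-/

set_option autoImplicit false

open scoped NumberField Pointwise

namespace Fermat.Agent.H8.FDT

section

variable {L : Type} [Field L] [NumberField L]

/-- iterating the Frobenius congruence -/
theorem pow_smul_sub_mem {P : Ideal (𝓞 L)} {ℓ : ℕ} {τ : L ≃ₐ[ℚ] L}
    (hτ : ∀ x : 𝓞 L, τ • x - x ^ ℓ ∈ P) (hτP : τ • P = P) (k : ℕ) (x : 𝓞 L) :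
    (τ ^ k) • x - x ^ (ℓ ^ k) ∈ P := by
  induction k generalizing x with
  | zero => simp
  | succ k ih =>
    have h1 : (τ ^ (k + 1)) • x - x ^ (ℓ ^ (k + 1)) =
        τ • ((τ ^ k) • x - x ^ (ℓ ^ k)) + (τ • (x ^ (ℓ ^ k)) - (x ^ (ℓ ^ k)) ^ ℓ) := by
      rw [pow_succ', mul_smul, smul_sub, pow_succ, pow_mul]
      ring
    rw [h1]
    refine P.add_mem ?_ (hτ _)
    have : τ • ((τ ^ k) • x - x ^ (ℓ ^ k)) ∈ τ • P := Ideal.smul_mem_pointwise_smul _ _ _ (ih x)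
    rwa [hτP] at this

end

attribute [local instance] Ideal.Quotient.field in
theorem frobGenerates : Fermat.Agent.H72.FrobGeneratesStatement := by
  intro L _ _ _ P _ ℓ hℓ hℓP hunr
  classical
  have hpp : Prime (ℓ : ℤ) := Nat.prime_iff_prime_int.mp hℓ
  have hmem : ((ℓ : ℤ) : 𝓞 L) ∈ P := by simpa using hℓP
  have hlo : P.LiesOver (Ideal.span {(ℓ : ℤ)}) :=
    (Ideal.liesOver_span_iff Ideal.IsPrime.ne_top' hpp).mpr hmem
  have : (Ideal.span {(ℓ : ℤ)}).IsPrime := by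
    rw [Ideal.span_singleton_prime hpp.ne_zero]; exact hpp
  have hP0 : P ≠ ⊥ := by
    intro h0
    rw [h0, Ideal.mem_bot] at hℓP
    exact hℓ.ne_zero (by exact_mod_cast hℓP)
  have : P.IsMaximal := Ideal.IsPrime.isMaximal inferInstance hP0
  have : Finite (𝓞 L ⧸ P) := Ideal.finiteQuotientOfFreeOfNeBot P hP0
  have : Fact ℓ.Prime := ⟨hℓ⟩
  obtain ⟨τ, hτ⟩ := IsArithFrobAt.exists_of_isInvariant ℤ (L ≃ₐ[ℚ] L) P
  have hτmem : τ ∈ MulAction.stabilizer (L ≃ₐ[ℚ] L) P := hτ.mem_stabilizer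
  have hτ' : ∀ x : 𝓞 L, τ • x - x ^ ℓ ∈ P := by
    intro x
    have h1 := hτ x
    rw [← hlo.over, Int.card_ideal_quot] at h1
    exact h1
  -- the inertia group is trivial
  have hcard := Ideal.card_inertia_eq_ramificationIdxIn (G := L ≃ₐ[ℚ] L) (Ideal.span {(ℓ : ℤ)}) P
  have hram : P.ramificationIdx ℤ = 1 := Ideal.ramificationIdx_eq_one_iff.2 hunr
  rw [Ideal.ramificationIdxIn_eq_ramificationIdx (Ideal.span {(ℓ : ℤ)}) P (L ≃ₐ[ℚ] L), hram] at hcard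
  have hsub : Subsingleton (P.inertia (L ≃ₐ[ℚ] L)) := (Nat.card_eq_one_iff_unique.1 hcard).1
  have htriv : ∀ σ ∈ P.inertia (L ≃ₐ[ℚ] L), σ = 1 := by
    intro σ hσ
    have := Subsingleton.elim (⟨σ, hσ⟩ : P.inertia (L ≃ₐ[ℚ] L)) ⟨1, one_mem _⟩
    exact congrArg Subtype.val this
  refine ⟨τ, hτ', le_antisymm ?_ ?_⟩
  · intro g hg
    let φ := IsFractionRing.stabilizerHom (L ≃ₐ[ℚ] L) (Ideal.span {(ℓ : ℤ)}) P
      (ℤ ⧸ Ideal.span {(ℓ : ℤ)}) (𝓞 L ⧸ P) ⟨g, hg⟩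
    have : CharP (ℤ ⧸ Ideal.span {(ℓ : ℤ)}) ℓ := ringChar.of_eq <| Int.ringChar_idealQuot ℓ
    obtain ⟨i, hi⟩ :=
      FiniteField.exists_forall_apply_eq_pow (ℤ ⧸ Ideal.span {(ℓ : ℤ)}) ℓ (𝓞 L ⧸ P) φ
    have hg' : ∀ x : 𝓞 L, g • x - x ^ (ℓ ^ i) ∈ P := by
      intro x
      have h₁ := IsFractionRing.stabilizerHom_apply_apply_mk (L ≃ₐ[ℚ] L) (Ideal.span {(ℓ : ℤ)}) P
        (ℤ ⧸ Ideal.span {(ℓ : ℤ)}) (𝓞 L ⧸ P) ⟨g, hg⟩ x
      simp only [Algebra.algebraMap_self, RingHomCompTriple.comp_apply] at h₁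
      have h₂ := hi (Ideal.Quotient.mk P x)
      rw [h₁, Int.card_ideal_quot, ← map_pow] at h₂
      exact Ideal.Quotient.eq.1 h₂
    have hτP : τ • P = P := hτmem
    have hin : g * (τ ^ i)⁻¹ ∈ P.inertia (L ≃ₐ[ℚ] L) := by
      intro x
      have e : (g * (τ ^ i)⁻¹) • x - x =
          (g • ((τ ^ i)⁻¹ • x) - ((τ ^ i)⁻¹ • x) ^ (ℓ ^ i)) -
            ((τ ^ i) • ((τ ^ i)⁻¹ • x) - ((τ ^ i)⁻¹ • x) ^ (ℓ ^ i)) := by
        rw [mul_smul, smul_inv_smul]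
        ring
      rw [e]
      exact P.sub_mem (hg' _) (pow_smul_sub_mem hτ' hτP i _)
    have h1 := htriv _ hin
    rw [mul_inv_eq_one] at h1
    rw [h1]
    exact Subgroup.pow_mem _ (Subgroup.mem_zpowers τ) i
  · rw [Subgroup.zpowers_le]
    exact hτmem

end Fermat.Agent.H8.FDT
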